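/-
S56, block (G2), part (U) = the Galois module structure of `S`-units modulo `p` (in the Grothendieck group).  DEFINITIONS.

Setting: `E` a number field, `Gam` a group acting on `E` by field automorphisms (`MulSemiringAction Gam E`),
`T : Set (Pl E)` a `Gam`-stable set of finite places (`Pl E`, `SU T` and the action on `Pl E` are those of `CFT/Basic.lean`).
* `suRep T hT  : Representation ℤ Gam (Additive (SU T))`      the `T`-units;
* `plRep k T hT : Representation k Gam (T → k)`                the permutation module `k[T]`;
* `infRep k     : Representation k Gam (InfinitePlace E → k)`  the permutation module `k[∞_E]`.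
-/
import Fermat.Agent.CFT.OrdGal
import Fermat.Agent.S56.G2.Rep.Defs

set_option autoImplicit false
set_option linter.unusedSectionVars false

open NumberField IsDedekindDomain Fermat.Agent.CFT

namespace Fermat.Agent.S56.G2

variable {E : Type} [Field E] [NumberField E] {Gam : Type} [Group Gam] [MulSemiringAction Gam E]

/-- `Gam`-stable sets of places. -/
def IsStable (Gam : Type) [Group Gam] [MulSemiringAction Gam E] (T : Set (Pl E)) : Prop :=
  ∀ g : Gam, ∀ v ∈ T, g • v ∈ T

theorem IsStable.not_mem {T : Set (Pl E)} (hT : IsStable Gam T) (g : Gam) {v : Pl E} (hv : v ∉ T) :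
    g • v ∉ T := fun h => hv (by simpa using hT g⁻¹ _ h)

/-- the action of `g` on `Eˣ`. -/
def uAct (g : Gam) : Eˣ →* Eˣ := Units.map (MulSemiringAction.toRingHom Gam E g : E →* E)

@[simp] theorem coe_uAct (g : Gam) (x : Eˣ) : ((uAct g x : Eˣ) : E) = g • (x : E) := rfl

theorem uAct_mem_SU {T : Set (Pl E)} (hT : IsStable Gam T) (g : Gam) {x : Eˣ} (hx : x ∈ SU T) :
    uAct g x ∈ SU T := by
  rw [mem_SU_iff] at hx ⊢
  intro v hv
  rw [coe_uAct, ord_smul']
  exact hx _ (hT.not_mem g⁻¹ hv)

/-- the action of `g` on `T`-units. -/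
def suAct (T : Set (Pl E)) (hT : IsStable Gam T) (g : Gam) : SU T →* SU T where
  toFun x := ⟨uAct g x.1, uAct_mem_SU hT g x.2⟩
  map_one' := by ext; simp
  map_mul' x y := by ext; simp

@[simp] theorem coe_suAct (T : Set (Pl E)) (hT : IsStable Gam T) (g : Gam) (x : SU T) :
    (((suAct T hT g x : SU T) : Eˣ) : E) = g • ((x : Eˣ) : E) := rfl

/-- the `ℤ[Gam]`-module of `T`-units. -/
def suRep (T : Set (Pl E)) (hT : IsStable Gam T) : Representation ℤ Gam (Additive (SU T)) where
  toFun g := (MonoidHom.toAdditive (suAct T hT g)).toIntLinearMap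
  map_one' := by
    refine LinearMap.ext fun x => ?_
    induction x using Additive.rec with | ofMul x => ?_
    show Additive.ofMul (suAct T hT 1 x) = Additive.ofMul x
    refine congrArg Additive.ofMul (Subtype.ext (Units.ext ?_))
    rw [coe_suAct, one_smul]
  map_mul' g h := by
    refine LinearMap.ext fun x => ?_
    induction x using Additive.rec with | ofMul x => ?_
    show Additive.ofMul (suAct T hT (g * h) x) = Additive.ofMul (suAct T hT g (suAct T hT h x))
    refine congrArg Additive.ofMul (Subtype.ext (Units.ext ?_))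
    rw [coe_suAct, coe_suAct, coe_suAct, mul_smul]

@[simp] theorem suRep_ofMul (T : Set (Pl E)) (hT : IsStable Gam T) (g : Gam) (x : SU T) :
    suRep T hT g (Additive.ofMul x) = Additive.ofMul (suAct T hT g x) := rfl

/-- the action of `Gam` on a stable set of places. -/
@[reducible] noncomputable def stableAction (T : Set (Pl E)) (hT : IsStable Gam T) : MulAction Gam T where
  smul g v := ⟨g • v.1, hT g v.1 v.2⟩
  one_smul v := Subtype.ext (one_smul Gam v.1)
  mul_smul g h v := Subtype.ext (mul_smul g h v.1)

/-- the permutation module `k[T]`. -/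
noncomputable def plRep (k : Type*) [CommRing k] (T : Set (Pl E)) (hT : IsStable Gam T) :
    Representation k Gam (T → k) :=
  @permRep k _ Gam _ T (stableAction T hT)

theorem plRep_apply (k : Type*) [CommRing k] (T : Set (Pl E)) (hT : IsStable Gam T) (g : Gam)
    (f : T → k) (v : T) : plRep k T hT g f v = f ⟨g⁻¹ • v.1, hT g⁻¹ v.1 v.2⟩ := rfl

/-- the action of `Gam` on the infinite places: `g • w = w ∘ g⁻¹`. -/
@[reducible] noncomputable def infAction : MulAction Gam (InfinitePlace E) where
  smul g w := w.comap (MulSemiringAction.toRingHom Gam E g⁻¹)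
  one_smul w := by
    refine InfinitePlace.ext _ _ fun x => ?_
    show w ((1 : Gam)⁻¹ • x) = w x
    rw [inv_one, one_smul]
  mul_smul g h w := by
    refine InfinitePlace.ext _ _ fun x => ?_
    show w ((g * h)⁻¹ • x) = w (h⁻¹ • g⁻¹ • x)
    rw [mul_inv_rev, mul_smul]

theorem infAction_smul_apply (g : Gam) (w : InfinitePlace E) (x : E) :
    (infAction.smul g w : InfinitePlace E) x = w (g⁻¹ • x) := rfl

/-- the permutation module `k[∞_E]`. -/
noncomputable def infRep (k : Type*) [CommRing k] : Representation k Gam (InfinitePlace E → k) :=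
  @permRep k _ Gam _ (InfinitePlace E) infAction

theorem infRep_apply (k : Type*) [CommRing k] (g : Gam) (f : InfinitePlace E → k)
    (w : InfinitePlace E) :
    infRep k g f w = f (w.comap (MulSemiringAction.toRingHom Gam E g)) := by
  show f (w.comap (MulSemiringAction.toRingHom Gam E g⁻¹⁻¹)) = _
  rw [inv_inv]

end Fermat.Agent.S56.G2
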