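/-
S56 (G2)/(U), leaves U1, U2: `T`-units are finitely generated; the valuation map `SU T → ℤ[T]`.
-/
import Fermat.Agent.S56.G2.Units.Defs
import Fermat.Agent.S56.G2.Rep.HFinite
import Fermat.Agent.CFT.SUnitIface

set_option autoImplicit false
set_option linter.unusedSectionVars false

open NumberField IsDedekindDomain Fermat.Agent.CFT

namespace Fermat.Agent.S56.G2

variable {E : Type} [Field E] [NumberField E] {Gam : Type} [Group Gam] [MulSemiringAction Gam E]

/-- the valuation vector of a `T`-unit. -/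
noncomputable def valT (T : Set (Pl E)) : Additive (SU T) →ₗ[ℤ] (T → ℤ) :=
  AddMonoidHom.toIntLinearMap
    { toFun := fun x v => ord v.1 (((Additive.toMul x : SU T) : Eˣ) : E)
      map_zero' := by
        funext v
        have h := ord_mul v.1 (one_ne_zero (α := E)) one_ne_zero
        rw [mul_one] at h
        simpa using h
      map_add' := fun x y => by
        funext v
        exact ord_mul v.1 (Units.ne_zero _) (Units.ne_zero _) }

@[simp] theorem valT_apply (T : Set (Pl E)) (x : Additive (SU T)) (v : T) :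
    valT T x v = ord v.1 (((Additive.toMul x : SU T) : Eˣ) : E) := rfl

/-- (`ord_smul'` of `CFT/OrdGal1.lean`, `plRep_apply`.) -/
theorem valT_equivariant (T : Set (Pl E)) (hT : IsStable Gam T) (g : Gam) (x : Additive (SU T)) :
    valT T (suRep T hT g x) = plRep ℤ T hT g (valT T x) := by
  induction x using Additive.rec with | ofMul x => ?_
  funext v
  rw [suRep_ofMul, plRep_apply, valT_apply, valT_apply]
  show ord v.1 (g • ((x : Eˣ) : E)) = ord (g⁻¹ • v.1) ((x : Eˣ) : E)
  exact ord_smul' g v.1 _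

/-- (U2a) the cokernel of the valuation map is finite (finiteness of the class group).
`CFT/SUnitRank.lean` has `exists_sUnit_single` / `valS_range_index_ne_zero` for `sUnits E S`, `S : Finset`, and
`CFT/SUnitRankMain.lean` has `SU_eq_sUnits`.  Direct route: with `h = Nat.card (ClassGroup (𝓞 E))`, for every `v ∈ T` there is
`a ∈ SU T` with `valT a = ± h • Pi.single v 1`; hence `h • (T → ℤ) ≤ range (valT T)`, and `(T → ℤ) ⧸ range` is a finitely generated
torsion `ℤ`-module (`Module.finite_of_fg_torsion`). -/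
theorem finite_coker_valT (T : Set (Pl E)) (hfin : T.Finite) :
    Finite ((T → ℤ) ⧸ LinearMap.range (valT T)) := by
  classical
  have : Finite T := hfin.to_subtype
  let _ := Fintype.ofFinite T
  set h := Nat.card (ClassGroup (𝓞 E)) with hh
  have hpos : h ≠ 0 := Nat.card_pos.ne'
  -- the multiples of the basis vectors are in the range
  have hsingle : ∀ v : T, (h : ℤ) • (Pi.single v (1 : ℤ) : T → ℤ) ∈ LinearMap.range (valT T) := by
    intro v
    have hvS : v.1 ∈ hfin.toFinset := hfin.mem_toFinset.mpr v.2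
    obtain ⟨a, ha⟩ := exists_sUnit_single E hfin.toFinset ⟨v.1, hvS⟩
    have haT : (a : Eˣ) ∈ SU T := by
      rw [SUnitRankMain.SU_eq_sUnits T hfin]
      exact a.2
    refine ⟨Additive.ofMul ⟨(a : Eˣ), haT⟩, ?_⟩
    funext w
    have hwS : w.1 ∈ hfin.toFinset := hfin.mem_toFinset.mpr w.2
    have h1 := congrFun ha ⟨w.1, hwS⟩
    rw [valS_apply] at h1
    have h2 : w.1.valuation E ((a : Eˣ) : E) = ((w.1.valuationOfNeZero (a : Eˣ) : Multiplicative ℤ) :
        WithZero (Multiplicative ℤ)) := (HeightOneSpectrum.valuationOfNeZero_eq w.1 (a : Eˣ)).symm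
    rw [valT_apply]
    show ord w.1 ((a : Eˣ) : E) = _
    unfold ord
    rw [h2, h1]
    by_cases hwv : w = v
    · subst hwv
      rw [Pi.mulSingle_eq_same]
      show -WithZero.log (WithZero.exp (-(Nat.card (ClassGroup (𝓞 E)) : ℤ))) = _
      rw [WithZero.log_exp]
      simp [hh]
    · have hne : (⟨w.1, hwS⟩ : hfin.toFinset) ≠ ⟨v.1, hvS⟩ := fun h3 =>
        hwv (Subtype.ext (Subtype.mk.inj h3))
      rw [Pi.mulSingle_eq_of_ne hne]
      simp [Pi.single_eq_of_ne hwv]
  have hall : ∀ y : T → ℤ, (h : ℤ) • y ∈ LinearMap.range (valT T) := by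
    intro y
    have hy : y = ∑ v : T, y v • (Pi.single v (1 : ℤ) : T → ℤ) := by
      funext w
      simp [Finset.sum_apply, Pi.single_apply]
    rw [hy, Finset.smul_sum]
    refine Submodule.sum_mem _ fun v _ => ?_
    rw [smul_comm]
    exact Submodule.smul_mem _ _ (hsingle v)
  have htors : Module.IsTorsion ℤ ((T → ℤ) ⧸ LinearMap.range (valT T)) := by
    intro x
    obtain ⟨y, rfl⟩ := Submodule.Quotient.mk_surjective _ x
    refine ⟨⟨(h : ℤ), mem_nonZeroDivisors_of_ne_zero (by exact_mod_cast hpos)⟩, ?_⟩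
    rw [Submonoid.mk_smul, ← Submodule.Quotient.mk_smul, Submodule.Quotient.mk_eq_zero]
    exact hall y
  exact Module.finite_of_fg_torsion _ htors

/-- (U1a) the global units `SU ∅ ≃ (𝓞 E)ˣ` are finitely generated (`unitsToKer_bijective` of `CFT/SUnitRank.lean`, or directly:
`x ∈ SU ∅` is integral with integral inverse, `mem_integers_of_valuation_le_one`; Mathlib: `(𝓞 E)ˣ` is f.g.:
`NumberField.Units` has `Monoid.FG (𝓞 K)ˣ`; `Module.Finite.iff_addGroup_fg`, `AddGroup.fg_iff_...`). -/
theorem exists_unitsEquiv : ∃ φ : (𝓞 E)ˣ ≃* SU (∅ : Set (Pl E)),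
    ∀ u : (𝓞 E)ˣ, (((φ u : SU (∅ : Set (Pl E))) : Eˣ) : E) = algebraMap (𝓞 E) E (u : 𝓞 E) := by
  let f : (𝓞 E)ˣ →* SU (∅ : Set (Pl E)) :=
    MonoidHom.codRestrict (Units.map (algebraMap (𝓞 E) E : 𝓞 E →* E)) (SU ∅) (fun u v _ => by
      rw [← valuationOfNeZero_eq_one_iff]
      exact HeightOneSpectrum.valuation_of_unit_eq v u)
  have hf : Function.Bijective f := by
    constructor
    · intro u u' h
      have h1 := congrArg (fun z : SU (∅ : Set (Pl E)) => ((z : Eˣ) : E)) h
      exact Units.ext (IsFractionRing.injective (𝓞 E) E h1)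
    · rintro ⟨x, hx⟩
      have hall : ∀ v : Pl E, v.valuation E (x : E) = 1 := fun v => hx v (Set.notMem_empty v)
      obtain ⟨a, ha⟩ := HeightOneSpectrum.mem_integers_of_valuation_le_one E (x : E)
        (fun v => (hall v).le)
      obtain ⟨b, hb⟩ := HeightOneSpectrum.mem_integers_of_valuation_le_one E ((x⁻¹ : Eˣ) : E)
        (fun v => by rw [Units.val_inv_eq_inv_val, map_inv₀, hall v, inv_one])
      have hab : a * b = 1 := by
        apply IsFractionRing.injective (𝓞 E) E
        rw [map_mul, ha, hb, map_one, Units.mul_inv]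
      refine ⟨⟨a, b, hab, by rw [mul_comm]; exact hab⟩, ?_⟩
      apply Subtype.ext
      apply Units.ext
      exact ha
  exact ⟨MulEquiv.ofBijective f hf, fun u => rfl⟩

instance finite_SU_empty : Module.Finite ℤ (Additive (SU (∅ : Set (Pl E)))) := by
  obtain ⟨φ, -⟩ := exists_unitsEquiv (E := E)
  have h1 : Module.Finite ℤ (Additive (𝓞 E)ˣ) := by
    rw [Module.Finite.iff_addGroup_fg, ← GroupFG.iff_add_fg, Group.fg_iff_monoid_fg]
    infer_instance
  exact Module.Finite.equiv (MulEquiv.toAdditive φ).toIntLinearEquiv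

theorem isStable_empty : IsStable Gam (∅ : Set (Pl E)) := fun _ _ h => h.elim

/-- the kernel of the valuation map is `SU ∅` (no group action). -/
theorem Val_exists_kerEquiv (T : Set (Pl E)) :
    ∃ φ : Additive (SU (∅ : Set (Pl E))) ≃ₗ[ℤ] LinearMap.ker (valT T),
      ∀ x : SU (∅ : Set (Pl E)),
        ((Additive.toMul ((φ (Additive.ofMul x) : LinearMap.ker (valT T)) : Additive (SU T)) : SU T) : Eˣ)
          = (x : Eˣ) := by
  let ι : SU (∅ : Set (Pl E)) →* SU T := Subgroup.inclusion (SU_mono (Set.empty_subset T))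
  let f0 : Additive (SU (∅ : Set (Pl E))) →ₗ[ℤ] Additive (SU T) :=
    (MonoidHom.toAdditive ι).toIntLinearMap
  have hker : ∀ x, f0 x ∈ LinearMap.ker (valT T) := by
    intro x
    induction x using Additive.rec with | ofMul x => ?_
    rw [LinearMap.mem_ker]
    funext v
    exact (mem_SU_iff ∅ (x : Eˣ)).mp x.2 v.1 (Set.notMem_empty _)
  let f : Additive (SU (∅ : Set (Pl E))) →ₗ[ℤ] LinearMap.ker (valT T) :=
    LinearMap.codRestrict _ f0 hker
  have hf : Function.Bijective f := by
    constructor
    · intro x y hxy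
      induction x using Additive.rec with | ofMul x => ?_
      induction y using Additive.rec with | ofMul y => ?_
      have h1 : ((Additive.toMul ((f (Additive.ofMul x) : LinearMap.ker (valT T)) : Additive (SU T)) :
          SU T) : Eˣ) = ((Additive.toMul ((f (Additive.ofMul y) : LinearMap.ker (valT T)) :
          Additive (SU T)) : SU T) : Eˣ) := by rw [hxy]
      exact congrArg Additive.ofMul (Subtype.ext h1)
    · rintro ⟨y, hy⟩
      induction y using Additive.rec with | ofMul y => ?_
      rw [LinearMap.mem_ker] at hy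
      have hmem : (y : Eˣ) ∈ SU (∅ : Set (Pl E)) := by
        rw [mem_SU_iff]
        intro v _
        by_cases hv : v ∈ T
        · exact congrFun hy ⟨v, hv⟩
        · exact (mem_SU_iff T (y : Eˣ)).mp y.2 v hv
      exact ⟨Additive.ofMul ⟨(y : Eˣ), hmem⟩, rfl⟩
  exact ⟨LinearEquiv.ofBijective f hf, fun x => rfl⟩

/-- (U2b) the kernel of the valuation map is `SU ∅`, equivariantly. -/
theorem exists_kerEquiv (T : Set (Pl E)) (hT : IsStable Gam T) :
    ∃ φ : Additive (SU (∅ : Set (Pl E))) ≃ₗ[ℤ] LinearMap.ker (valT T),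
      ∀ (g : Gam) x, ((φ (suRep ∅ isStable_empty g x) : LinearMap.ker (valT T)) : Additive (SU T)) =
        suRep T hT g (φ x : Additive (SU T)) := by
  obtain ⟨φ, hφ⟩ := Val_exists_kerEquiv T
  refine ⟨φ, fun g x => ?_⟩
  induction x using Additive.rec with | ofMul x => ?_
  rw [suRep_ofMul]
  have h1 := hφ (suAct ∅ isStable_empty g x)
  have h2 := hφ x
  have h3 : ∀ y z : Additive (SU T), ((Additive.toMul y : SU T) : Eˣ) = ((Additive.toMul z : SU T) : Eˣ) →
      y = z := fun y z h => Additive.toMul.injective (Subtype.ext h)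
  apply h3
  rw [h1]
  generalize ((φ (Additive.ofMul x) : LinearMap.ker (valT T)) : Additive (SU T)) = y at h2 ⊢
  induction y using Additive.rec with | ofMul y => ?_
  rw [suRep_ofMul]
  apply Units.ext
  show g • ((x : Eˣ) : E) = g • ((y : Eˣ) : E)
  have h4 : (y : Eˣ) = (x : Eˣ) := h2
  rw [h4]

/-- (U1b) `T`-units are finitely generated: `0 → ker → SU T → range ≤ ℤ^T`
(`Module.Finite.of_submodule_quotient` / `Module.Finite.of_injective`-type lemmas; `ℤ` noetherian). -/
theorem finite_SU (T : Set (Pl E)) (hfin : T.Finite) : Module.Finite ℤ (Additive (SU T)) := by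
  have : Finite T := hfin.to_subtype
  obtain ⟨φ, -⟩ := Val_exists_kerEquiv T
  have hk : Module.Finite ℤ (LinearMap.ker (valT T)) := Module.Finite.equiv φ
  refine ⟨Submodule.fg_of_fg_map_of_fg_inf_ker (valT T) (IsNoetherian.noetherian _) ?_⟩
  rw [top_inf_eq]
  exact Module.Finite.iff_fg.mp hk

end Fermat.Agent.S56.G2
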