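/-
S56 (G2)/(U), leaf U4: an equivariant family of Minkowski units.
-/
import Fermat.Agent.S56.G2.Units.Val

set_option autoImplicit false
set_option linter.unusedSectionVars false

open NumberField IsDedekindDomain Fermat.Agent.CFT

namespace Fermat.Agent.S56.G2

variable {E : Type} [Field E] [NumberField E] {Gam : Type} [Group Gam] [MulSemiringAction Gam E]

/-- **Equivariant Minkowski units.**
Mathlib: `NumberField.Units.dirichletUnitTheorem.exists_unit E w₁ : ∃ u : (𝓞 E)ˣ, ∀ w ≠ w₁, Real.log (w u) < 0`.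
Transport to `SU ∅` by `exists_unitsEquiv`: choose `u w ∈ SU ∅` with `w' (u w) < 1` for all `w' ≠ w` (`Real.log_neg_iff`-type lemma,
`w' x > 0` for `x ≠ 0`).  Put  `ε w := ∏ σ : Gam, σ (u (σ⁻¹ • w))`  (`σ` acting by `suAct ∅ _ σ`, `σ⁻¹ • w = w ∘ σ`).
* equivariance: `τ (ε w) = ∏ σ, (τ σ) (u (σ⁻¹ • w)) = ∏ σ', σ' (u (σ'⁻¹ • τ • w))` (`Fintype.prod_equiv (Equiv.mulLeft τ)`);
* for `w' ≠ w`: `w' (σ (u (σ⁻¹ • w))) = (σ⁻¹ • w') (u (σ⁻¹ • w)) < 1` because `σ⁻¹ • w' ≠ σ⁻¹ • w`; a nonempty finite product of numbers in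
  `(0, 1)` is `< 1` (`Finset.prod_lt_one`-type lemma; `map_prod` for the absolute value `w'`). -/
theorem exists_minkowski [Finite Gam] :
    ∃ ε : InfinitePlace E → SU (∅ : Set (Pl E)),
      (∀ (g : Gam) (w : InfinitePlace E), suAct ∅ isStable_empty g (ε w) =
        ε (w.comap (MulSemiringAction.toRingHom Gam E g⁻¹))) ∧
      ∀ w w' : InfinitePlace E, w' ≠ w → w' (((ε w : SU (∅ : Set (Pl E))) : Eˣ) : E) < 1 := by
  classical
  have := Fintype.ofFinite Gam
  obtain ⟨φ, hφ⟩ := exists_unitsEquiv (E := E)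
  -- Minkowski units
  have hex : ∀ w : InfinitePlace E, ∃ u : SU (∅ : Set (Pl E)),
      ∀ w' : InfinitePlace E, w' ≠ w → w' ((u : Eˣ) : E) < 1 := by
    intro w
    obtain ⟨u, hu⟩ := NumberField.Units.dirichletUnitTheorem.exists_unit E w
    refine ⟨φ u, fun w' hw' => ?_⟩
    rw [hφ]
    have h1 := hu w' hw'
    have h0 : (0 : ℝ) < w' (algebraMap (𝓞 E) E (u : 𝓞 E)) := by
      rw [InfinitePlace.pos_iff]
      exact (NumberField.Units.coe_ne_zero u)
    exact (Real.log_neg_iff h0).mp h1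
  choose u hu using hex
  -- `cm σ w = w ∘ σ`
  let cm : Gam → InfinitePlace E → InfinitePlace E :=
    fun σ w => w.comap (MulSemiringAction.toRingHom Gam E σ)
  have hcm : ∀ σ w (x : E), cm σ w x = w (σ • x) := fun σ w x => rfl
  have hcm_mul : ∀ σ τ w, cm σ (cm τ w) = cm (τ * σ) w := by
    intro σ τ w
    refine InfinitePlace.ext _ _ fun x => ?_
    rw [hcm, hcm, hcm, mul_smul]
  have hcm_one : ∀ w, cm 1 w = w := by
    intro w
    refine InfinitePlace.ext _ _ fun x => ?_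
    rw [hcm, one_smul]
  have hcm_inj : ∀ σ, Function.Injective (cm σ) := by
    intro σ w w' h
    have := congrArg (cm σ⁻¹) h
    rwa [hcm_mul, hcm_mul, mul_inv_cancel, hcm_one, hcm_one] at this
  have hact_mul : ∀ (g σ : Gam) (x : SU (∅ : Set (Pl E))),
      suAct ∅ isStable_empty g (suAct ∅ isStable_empty σ x) = suAct ∅ isStable_empty (g * σ) x := by
    intro g σ x
    refine Subtype.ext (Units.ext ?_)
    rw [coe_suAct, coe_suAct, coe_suAct, mul_smul]
  refine ⟨fun w => ∏ σ : Gam, suAct ∅ isStable_empty σ (u (cm σ w)), ?_, ?_⟩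
  · intro g w
    rw [map_prod]
    refine Fintype.prod_equiv (Equiv.mulLeft g) _ _ fun σ => ?_
    rw [hact_mul, Equiv.coe_mulLeft]
    have : cm (g * σ) (w.comap (MulSemiringAction.toRingHom Gam E g⁻¹)) = cm σ w := by
      show cm (g * σ) (cm g⁻¹ w) = cm σ w
      rw [hcm_mul, inv_mul_cancel_left]
    rw [this]
  · intro w w' hw
    have hcoe : (((∏ σ : Gam, suAct ∅ isStable_empty σ (u (cm σ w)) : SU (∅ : Set (Pl E))) : Eˣ) : E)
        = ∏ σ : Gam, σ • (((u (cm σ w) : SU (∅ : Set (Pl E))) : Eˣ) : E) := by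
      have := map_prod ((Units.coeHom E).comp (SU (∅ : Set (Pl E))).subtype)
        (fun σ : Gam => suAct ∅ isStable_empty σ (u (cm σ w))) Finset.univ
      exact this
    rw [hcoe, map_prod]
    have h1 : (∏ σ : Gam, w' (σ • (((u (cm σ w) : SU (∅ : Set (Pl E))) : Eˣ) : E))) <
        ∏ _σ : Gam, (1 : ℝ) := by
      refine Finset.prod_lt_prod_of_nonempty (fun σ _ => ?_) (fun σ _ => ?_)
        ⟨1, Finset.mem_univ _⟩
      · rw [InfinitePlace.pos_iff]
        exact (smul_ne_zero_iff_ne σ).mpr (Units.ne_zero _)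
      · rw [← hcm]
        exact hu _ _ fun h => hw (hcm_inj σ h)
    simpa using h1

end Fermat.Agent.S56.G2
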