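/-
S56 (G2)/(U), leaf U5: a sign lemma for real matrices with negative off-diagonal entries and zero column sums.
Mathlib only.
-/
import Mathlib

set_option autoImplicit false

namespace Fermat.Agent.S56.G2

open Finset in
/-- auxiliary: if `M a = 0` and some `a j > 0` then all `a j > 0`. -/
theorem sign_aux {ι : Type*} [Fintype ι] (M : ι → ι → ℝ)
    (hoff : ∀ i j, i ≠ j → M i j < 0) (hcol : ∀ j, ∑ i, M i j = 0)
    (a : ι → ℝ) (h1 : ∀ i, ∑ j, M i j * a j = 0) (j₀ : ι) (hj₀ : 0 < a j₀) : ∀ j, 0 < a j := by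
  classical
  by_contra hcon
  push Not at hcon
  obtain ⟨j₁, hj₁⟩ := hcon
  set P : Finset ι := univ.filter (fun j => 0 < a j) with hP
  have hj₀P : j₀ ∈ P := by simp [hP, hj₀]
  have hj₁P : j₁ ∉ P := by simp [hP, hj₁]
  set c : ι → ℝ := fun j => ∑ i ∈ P, M i j with hc
  have hsum : ∑ j, a j * c j = 0 := by
    calc ∑ j, a j * c j = ∑ j, ∑ i ∈ P, M i j * a j := by
          refine Finset.sum_congr rfl fun j _ => ?_
          rw [hc, Finset.mul_sum]
          exact Finset.sum_congr rfl fun i _ => mul_comm _ _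
      _ = ∑ i ∈ P, ∑ j, M i j * a j := Finset.sum_comm
      _ = 0 := Finset.sum_eq_zero fun i _ => h1 i
  have hpos : ∀ j ∈ P, 0 < c j := by
    intro j hj
    have h2 : c j + ∑ i ∈ Pᶜ, M i j = 0 := by
      rw [hc, Finset.sum_add_sum_compl]
      exact hcol j
    have h3 : ∑ i ∈ Pᶜ, M i j < 0 := by
      refine Finset.sum_neg (fun i hi => hoff i j ?_) ⟨j₁, by simpa using hj₁P⟩
      rintro rfl
      exact (Finset.mem_compl.1 hi) hj
    linarith
  have hneg : ∀ j, j ∉ P → c j < 0 := by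
    intro j hj
    refine Finset.sum_neg (fun i hi => hoff i j ?_) ⟨j₀, hj₀P⟩
    rintro rfl
    exact hj hi
  have hterm : ∀ j, 0 ≤ a j * c j := by
    intro j
    by_cases hj : j ∈ P
    · have : 0 < a j := by simpa [hP] using hj
      exact (mul_pos this (hpos j hj)).le
    · have : a j ≤ 0 := by simpa [hP] using hj
      exact mul_nonneg_of_nonpos_of_nonpos this (hneg j hj).le
  have hlt : 0 < ∑ j, a j * c j :=
    Finset.sum_pos' (fun j _ => hterm j) ⟨j₀, Finset.mem_univ _, mul_pos hj₀ (hpos j₀ hj₀P)⟩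
  linarith

/-- Let `M` have negative off-diagonal entries and zero column sums.  If `M a = 0` and `∑ a = 0` then `a = 0`.
Proof.  Suppose `a ≠ 0`; replacing `a` by `-a` we may assume `P = {j | 0 < a j}` is nonempty; since `∑ a = 0`, the complement of `P` is
nonempty too.  Sum the equations `∑ j, M i j * a j = 0` over `i ∈ P` and exchange the sums: `0 = ∑ j, a j * c j` with
`c j = ∑ i ∈ P, M i j`.  For `j ∈ P`: `c j = - ∑ i ∉ P, M i j > 0` (column sum zero, the complement is nonempty and only contains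
off-diagonal indices), so `a j * c j > 0`.  For `j ∉ P`: `a j ≤ 0` and `c j < 0` (`P` nonempty, off-diagonal), so `a j * c j ≥ 0`.
Contradiction. -/
theorem eq_zero_of_sign {ι : Type*} [Fintype ι] (M : ι → ι → ℝ)
    (hoff : ∀ i j, i ≠ j → M i j < 0) (hcol : ∀ j, ∑ i, M i j = 0)
    (a : ι → ℝ) (h1 : ∀ i, ∑ j, M i j * a j = 0) (h2 : ∑ j, a j = 0) : a = 0 := by
  by_contra hne
  obtain ⟨j₀, hj₀⟩ : ∃ j, a j ≠ 0 := by
    by_contra h
    push Not at h
    exact hne (funext h)
  rcases lt_or_gt_of_ne hj₀ with hlt | hgt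
  · have h3 := sign_aux M hoff hcol (fun j => - a j) (fun i => by
      simp only [mul_neg, Finset.sum_neg_distrib, h1 i, neg_zero]) j₀ (by simpa using hlt)
    have h4 : 0 < ∑ j, - a j := Finset.sum_pos (fun j _ => h3 j) ⟨j₀, Finset.mem_univ _⟩
    rw [Finset.sum_neg_distrib, h2] at h4
    simp at h4
  · have h3 := sign_aux M hoff hcol a h1 j₀ hgt
    have h4 : 0 < ∑ j, a j := Finset.sum_pos (fun j _ => h3 j) ⟨j₀, Finset.mem_univ _⟩
    rw [h2] at h4
    exact lt_irrefl _ h4

end Fermat.Agent.S56.G2
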