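/-
S56 (G2)/(U), leaves U6a, U6b: the map `ψ : ℤ[∞_E] → SU ∅ × ℤ`, `a ↦ (∏ ε_w ^ a_w, ∑ a_w)` attached to a family of Minkowski units is
equivariant, injective, with finite cokernel.
-/
import Fermat.Agent.S56.G2.Units.Mink
import Fermat.Agent.S56.G2.Units.Sign

set_option autoImplicit false
set_option linter.unusedSectionVars false

open NumberField IsDedekindDomain Fermat.Agent.CFT

namespace Fermat.Agent.S56.G2

variable {E : Type} [Field E] [NumberField E] {Gam : Type} [Group Gam] [MulSemiringAction Gam E]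

/-- `a ↦ (∑ a_w • ε_w, ∑ a_w)`. -/
noncomputable def psi (ε : InfinitePlace E → SU (∅ : Set (Pl E))) :
    (InfinitePlace E → ℤ) →ₗ[ℤ] (Additive (SU (∅ : Set (Pl E))) × ℤ) :=
  LinearMap.prod (Fintype.linearCombination ℤ (fun w => Additive.ofMul (ε w)))
    (∑ w, LinearMap.proj w)

theorem psi_fst (ε : InfinitePlace E → SU (∅ : Set (Pl E))) (a : InfinitePlace E → ℤ) :
    (psi ε a).1 = ∑ w, a w • Additive.ofMul (ε w) := by
  simp [psi, Fintype.linearCombination_apply]

theorem psi_snd (ε : InfinitePlace E → SU (∅ : Set (Pl E))) (a : InfinitePlace E → ℤ) :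
    (psi ε a).2 = ∑ w, a w := by
  simp [psi]

/-- (U6a) equivariance (reindex the sums by the permutation `w ↦ g • w` of `InfinitePlace E`; `infRep_apply`). -/
theorem psi_equivariant (ε : InfinitePlace E → SU (∅ : Set (Pl E)))
    (hε : ∀ (g : Gam) (w : InfinitePlace E), suAct ∅ isStable_empty g (ε w) =
        ε (w.comap (MulSemiringAction.toRingHom Gam E g⁻¹))) (g : Gam) (a : InfinitePlace E → ℤ) :
    psi ε (infRep ℤ g a) =
      ((suRep (∅ : Set (Pl E)) isStable_empty).prod (Representation.trivial ℤ Gam ℤ)) g (psi ε a) := by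
  let _ : MulAction Gam (InfinitePlace E) := infAction
  have hinf : ∀ w : InfinitePlace E, infRep ℤ g a (g • w) = a w := by
    intro w
    show a (g⁻¹ • g • w) = a w
    rw [inv_smul_smul]
  have hprod : ((suRep (∅ : Set (Pl E)) isStable_empty).prod (Representation.trivial ℤ Gam ℤ)) g
      (psi ε a) = (suRep (∅ : Set (Pl E)) isStable_empty g (psi ε a).1, (psi ε a).2) := rfl
  rw [hprod]
  refine Prod.ext ?_ ?_
  · show (psi ε (infRep ℤ g a)).1 = suRep (∅ : Set (Pl E)) isStable_empty g (psi ε a).1
    rw [psi_fst, psi_fst, map_sum]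
    refine (Fintype.sum_equiv (MulAction.toPerm g) _ _ (fun w => ?_)).symm
    rw [map_zsmul, suRep_ofMul, hε g w]
    show a w • Additive.ofMul (ε (g • w)) = infRep ℤ g a (g • w) • Additive.ofMul (ε (g • w))
    rw [hinf]
  · show (psi ε (infRep ℤ g a)).2 = (psi ε a).2
    rw [psi_snd, psi_snd]
    refine (Fintype.sum_equiv (MulAction.toPerm g) _ _ (fun w => ?_)).symm
    exact (hinf w).symm

/-- `x ↦ log (w x)` on units. -/
noncomputable def logAt (w : InfinitePlace E) : Additive (SU (∅ : Set (Pl E))) →+ ℝ where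
  toFun x := Real.log (w (((Additive.toMul x : SU (∅ : Set (Pl E))) : Eˣ) : E))
  map_zero' := by simp
  map_add' x y := by
    show Real.log (w ((((Additive.toMul x * Additive.toMul y : SU (∅ : Set (Pl E))) : Eˣ) : E))) = _
    rw [Subgroup.coe_mul, Units.val_mul, map_mul, Real.log_mul]
    · exact (map_ne_zero w).2 (Units.ne_zero _)
    · exact (map_ne_zero w).2 (Units.ne_zero _)

/-- (U6a) injectivity.  If `psi ε a = 0` then `∏ w, ε_w ^ a_w = 1`, so for every `w'`: `∑ w, a w * log (w' (ε w)) = 0`.
Apply `eq_zero_of_sign` to `M w' w = mult w' * log (w' (ε w))`: off-diagonal entries are negative (`hε'`, `Real.log_neg`), the column sums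
vanish by the product formula `NumberField.Units.sum_mult_mul_log` (transport `ε w` to `(𝓞 E)ˣ` by `exists_unitsEquiv`). -/
theorem psi_injective (ε : InfinitePlace E → SU (∅ : Set (Pl E)))
    (hε' : ∀ w w' : InfinitePlace E, w' ≠ w → w' (((ε w : SU (∅ : Set (Pl E))) : Eˣ) : E) < 1) :
    Function.Injective (psi ε) := by
  rw [injective_iff_map_eq_zero]
  intro a ha
  have ha1 : ∑ w, a w • Additive.ofMul (ε w) = 0 := by
    rw [← psi_fst, ha]; rfl
  have ha2 : ∑ w, a w = 0 := by
    rw [← psi_snd ε, ha]; rfl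
  obtain ⟨φ, hφ⟩ := exists_unitsEquiv (E := E)
  have key := eq_zero_of_sign
    (fun w' w : InfinitePlace E => (w'.mult : ℝ) * Real.log (w' (((ε w : SU (∅ : Set (Pl E))) : Eˣ) : E)))
    (fun w' w hne => by
      refine mul_neg_of_pos_of_neg (by exact_mod_cast w'.mult_pos) (Real.log_neg ?_ (hε' w w' hne))
      exact InfinitePlace.pos_iff.2 (Units.ne_zero _))
    (fun w => by
      have h := NumberField.Units.sum_mult_mul_log (φ.symm (ε w))
      rw [← hφ (φ.symm (ε w)), φ.apply_symm_apply] at h
      exact h)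
    (fun w => (a w : ℝ))
    (fun w' => by
      have h := congrArg (logAt w') ha1
      rw [map_sum, map_zero] at h
      simp only [map_zsmul] at h
      have h2 : ∑ w, (w'.mult : ℝ) * Real.log (w' (((ε w : SU (∅ : Set (Pl E))) : Eˣ) : E)) * (a w : ℝ) =
          (w'.mult : ℝ) * ∑ w, a w • logAt w' (Additive.ofMul (ε w)) := by
        rw [Finset.mul_sum]
        refine Finset.sum_congr rfl fun w _ => ?_
        rw [zsmul_eq_mul]
        show _ = (w'.mult : ℝ) * ((a w : ℝ) * Real.log (w' (((ε w : SU (∅ : Set (Pl E))) : Eˣ) : E)))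
        ring
      rw [h2, h, mul_zero])
    (by exact_mod_cast ha2)
  funext w
  have := congrFun key w
  simpa using this

/-- (U6b) pure algebra: an injective map from `ℤ^ι` to a finitely generated abelian group of the same rank has finite cokernel.
(`Submodule.finrank_quotient_add_finrank` (`ℤ` has `HasRankNullity`), `LinearMap.finrank_range_of_inj`, `Module.finrank_eq_zero_iff_isTorsion`,
`Module.finite_of_fg_torsion`.) -/
theorem finite_quotient_range_of_injective {M : Type*} [AddCommGroup M] [Module.Finite ℤ M]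
    {ι : Type*} [Fintype ι] (f : (ι → ℤ) →ₗ[ℤ] M) (hf : Function.Injective f)
    (hrank : Module.finrank ℤ M = Fintype.card ι) : Finite (M ⧸ LinearMap.range f) := by
  have h1 := Submodule.finrank_quotient_add_finrank (LinearMap.range f)
  rw [LinearMap.finrank_range_of_inj hf, hrank, Module.finrank_fintype_fun_eq_card] at h1
  have h2 : Module.finrank ℤ (M ⧸ LinearMap.range f) = 0 := by omega
  exact Module.finite_of_fg_torsion _ (Module.finrank_eq_zero_iff_isTorsion.mp h2)

/-- (U6b) Dirichlet: `rank (SU ∅ × ℤ) = #∞_E`.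
(`NumberField.Units.finrank_modTorsion`, `NumberField.Units.rank`, `exists_unitsEquiv`; the torsion subgroup is finite, so it has `finrank ℤ = 0`;
rank-nullity `Submodule.finrank_quotient_add_finrank` twice; `Fintype.card (InfinitePlace E) ≥ 1`.) -/
theorem finrank_SU_empty_prod :
    Module.finrank ℤ (Additive (SU (∅ : Set (Pl E))) × ℤ) = Fintype.card (InfinitePlace E) := by
  obtain ⟨φ, -⟩ := exists_unitsEquiv (E := E)
  have h1 : Module.finrank ℤ (Additive (SU (∅ : Set (Pl E)))) = NumberField.Units.rank E := by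
    rw [← NumberField.Units.finrank_eq]
    exact ((MulEquiv.toAdditive φ).toIntLinearEquiv).finrank_eq.symm
  have h2 := Submodule.finrank_quotient_add_finrank
    (LinearMap.ker (LinearMap.snd ℤ (Additive (SU (∅ : Set (Pl E)))) ℤ))
  rw [((LinearMap.snd ℤ (Additive (SU (∅ : Set (Pl E)))) ℤ).quotKerEquivOfSurjective
    LinearMap.snd_surjective).finrank_eq, Module.finrank_self, LinearMap.ker_snd,
    LinearMap.finrank_range_of_inj LinearMap.inl_injective, h1] at h2
  rw [← h2]
  have h3 : 0 < Fintype.card (InfinitePlace E) := Fintype.card_pos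
  unfold NumberField.Units.rank
  omega

theorem finite_coker_psi (ε : InfinitePlace E → SU (∅ : Set (Pl E)))
    (hε' : ∀ w w' : InfinitePlace E, w' ≠ w → w' (((ε w : SU (∅ : Set (Pl E))) : Eˣ) : E) < 1) :
    Finite ((Additive (SU (∅ : Set (Pl E))) × ℤ) ⧸ LinearMap.range (psi ε)) :=
  finite_quotient_range_of_injective (psi ε) (psi_injective ε hε') finrank_SU_empty_prod

end Fermat.Agent.S56.G2
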