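/-
S56 (G2)/(U): MAIN THEOREM on the Galois module structure of `T`-units modulo `p` (assembly, no own sorry).

For every additive invariant `e` of `𝔽_p[Gam]`-modules:
  `e (O_T^×/p) = e (O_T^×[p]) + e (𝔽_p[T]) + e (𝔽_p[∞_E]) - e (𝔽_p)`.
-/
import Fermat.Agent.S56.G2.Units.Psi
import Fermat.Agent.S56.G2.Rep.HPerm
import Fermat.Agent.S56.G2.Rep.Bridge

set_option autoImplicit false
set_option linter.unusedSectionVars false

open NumberField IsDedekindDomain Fermat.Agent.CFT

namespace Fermat.Agent.S56.G2

variable {E : Type} [Field E] [NumberField E] {Gam : Type} [Group Gam] [MulSemiringAction Gam E]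
variable {p : ℕ} [Fact p.Prime]

/-- the Herbrand function of the global units. -/
theorem hh_units [Finite Gam] {e : Inv (ZMod p) Gam} (he : IsAdditive e) :
    hh p e (Additive (SU (∅ : Set (Pl E)))) (suRep ∅ isStable_empty) =
      e (InfinitePlace E → ZMod p) (infRep (ZMod p)) -
        e (ZMod p) (Representation.trivial (ZMod p) Gam (ZMod p)) := by
  obtain ⟨ε, hε, hε'⟩ := exists_minkowski (E := E) (Gam := Gam)
  have h1 := hh_eq_of_injective he (infRep ℤ)
    ((suRep (∅ : Set (Pl E)) isStable_empty).prod (Representation.trivial ℤ Gam ℤ)) (psi ε)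
    (psi_equivariant ε hε) (psi_injective ε hε') (finite_coker_psi ε hε')
  rw [hh_prod he, hh_trivial he] at h1
  have h2 : hh p e (InfinitePlace E → ℤ) (infRep ℤ) =
      e (InfinitePlace E → ZMod p) (infRep (ZMod p)) :=
    @hh_permRep p _ Gam _ e he (InfinitePlace E) _ infAction
  rw [h2] at h1
  linarith

/-- **Main theorem of block (U)**, `Inv` form. -/
theorem units_formula [Finite Gam] {e : Inv (ZMod p) Gam} (he : IsAdditive e)
    (T : Set (Pl E)) (hfin : T.Finite) (hT : IsStable Gam T) :
    e (QuotP p (Additive (SU T))) (quotPRep p (suRep T hT)) =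
      e (TorP p (Additive (SU T))) (torPRep p (suRep T hT)) +
      e (T → ZMod p) (plRep (ZMod p) T hT) +
      e (InfinitePlace E → ZMod p) (infRep (ZMod p)) -
      e (ZMod p) (Representation.trivial (ZMod p) Gam (ZMod p)) := by
  have := finite_SU T hfin
  have : Finite T := hfin.to_subtype
  have h1 := hh_eq_ker_add he (suRep T hT) (plRep ℤ T hT) (valT T) (valT_equivariant T hT)
    (finite_coker_valT T hfin)
  have h2 : hh p e (T → ℤ) (plRep ℤ T hT) = e (T → ZMod p) (plRep (ZMod p) T hT) :=
    @hh_permRep p _ Gam _ e he T _ (stableAction T hT)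
  obtain ⟨φ, hφ⟩ := exists_kerEquiv (Gam := Gam) T hT
  have h3 := hh_congr he (suRep (∅ : Set (Pl E)) isStable_empty)
    ((suRep T hT).subrepresentation (LinearMap.ker (valT T)) (fun g a ha => by
      rw [Submodule.mem_comap, LinearMap.mem_ker, valT_equivariant, LinearMap.mem_ker.1 ha, map_zero]))
    φ (fun g x => Subtype.ext (hφ g x))
  rw [← h3, h2, hh_units he] at h1
  unfold hh at h1
  linarith

/-- **Main theorem of block (U)**, `AddFun` form. -/
theorem units_formula' [Finite Gam] (e : AddFun (ZMod p) Gam)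
    (T : Set (Pl E)) (hfin : T.Finite) (hT : IsStable Gam T)
    [Module.Finite (ZMod p) (QuotP p (Additive (SU T)))]
    [Module.Finite (ZMod p) (TorP p (Additive (SU T)))] [Module.Finite (ZMod p) (T → ZMod p)] :
    e.toFun (QuotP p (Additive (SU T))) (quotPRep p (suRep T hT)) =
      e.toFun (TorP p (Additive (SU T))) (torPRep p (suRep T hT)) +
      e.toFun (T → ZMod p) (plRep (ZMod p) T hT) +
      e.toFun (InfinitePlace E → ZMod p) (infRep (ZMod p)) -
      e.toFun (ZMod p) (Representation.trivial (ZMod p) Gam (ZMod p)) := by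
  have h := units_formula e.isAdditive_toInv T hfin hT
  rwa [e.toInv_apply, e.toInv_apply, e.toInv_apply, e.toInv_apply, e.toInv_apply] at h

end Fermat.Agent.S56.G2
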