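/-
S56 (G2)/(U), leaf U8: the `p`-torsion of the `T`-units is `μ_p(E)`, i.e. `𝔽_p(χ)` if `ζ_p ∈ E`.
-/
import Fermat.Agent.S56.G2.Units.Defs
import Fermat.Agent.S56.G2.Rep.AddBasic

set_option autoImplicit false
set_option linter.unusedSectionVars false

open NumberField IsDedekindDomain Fermat.Agent.CFT

namespace Fermat.Agent.S56.G2

variable {E : Type} [Field E] [NumberField E] {Gam : Type} [Group Gam] [MulSemiringAction Gam E]
variable {p : ℕ} [Fact p.Prime]

/-- The map `ZMod p → (SU T)[p]`, `a ↦ ζ ^ a.val` is an additive bijection (roots of unity are `T`-units: `p * ord v ζ = ord v 1 = 0`;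
every `x` with `x ^ p = 1` is a power of `ζ`: `IsPrimitiveRoot.eq_pow_of_pow_eq_one`; injective: `IsPrimitiveRoot.pow_inj`), equivariant for
`τμ` (`g • ζ ^ a = (g • ζ) ^ a = ζ ^ ((χ g).val * a)`, exponents only matter mod `p`). Conclude by `IsAdditive.congr_add`. -/
theorem IsAdditive.torP_SU {e : Inv (ZMod p) Gam} (he : IsAdditive e) (T : Set (Pl E))
    (hT : IsStable Gam T) (ζ : E) (hζ : IsPrimitiveRoot ζ p)
    (τμ : Representation (ZMod p) Gam (ZMod p)) (χ : Gam → ZMod p)
    (hχ : ∀ g : Gam, g • ζ = ζ ^ (χ g).val) (hτ : ∀ (g : Gam) (a : ZMod p), τμ g a = χ g * a) :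
    e (TorP p (Additive (SU T))) (torPRep p (suRep T hT)) = e (ZMod p) τμ := by
  have hp0 : p ≠ 0 := (Fact.out : p.Prime).ne_zero
  have hζ0 : ζ ≠ 0 := hζ.ne_zero hp0
  have hmem : Units.mk0 ζ hζ0 ∈ SU T := by
    rw [mem_SU_iff]
    intro v _
    have h1 : ord v (ζ ^ p) = 0 := by
      rw [hζ.pow_eq_one]
      have h := ord_mul v (one_ne_zero (α := E)) one_ne_zero
      rw [mul_one] at h
      linarith
    rw [ord_pow] at h1
    rcases mul_eq_zero.1 h1 with h3 | h3
    · exact absurd (Nat.cast_eq_zero.1 h3) hp0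
    · exact h3
  set z : SU T := ⟨Units.mk0 ζ hζ0, hmem⟩ with hz
  have hzc : ∀ n : ℕ, (((z ^ n : SU T) : Eˣ) : E) = ζ ^ n := fun n => by
    rw [Subgroup.coe_pow, Units.val_pow_eq_pow_val]; rfl
  have hzp : z ^ p = 1 := by
    apply Subtype.ext
    apply Units.ext
    rw [hzc, hζ.pow_eq_one]; rfl
  let F : ZMod p →+ Additive (SU T) :=
    ZMod.lift p ⟨zmultiplesHom (Additive (SU T)) (Additive.ofMul z), by
      show (p : ℤ) • Additive.ofMul z = 0
      rw [natCast_zsmul, ← ofMul_pow, hzp]; rfl⟩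
  have hF : ∀ n : ℕ, F (n : ZMod p) = Additive.ofMul (z ^ n) := by
    intro n
    have h := ZMod.lift_coe p (⟨zmultiplesHom (Additive (SU T)) (Additive.ofMul z), by
      show (p : ℤ) • Additive.ofMul z = 0
      rw [natCast_zsmul, ← ofMul_pow, hzp]; rfl⟩ : {f : ℤ →+ Additive (SU T) // f p = 0}) (n : ℤ)
    rw [Int.cast_natCast] at h
    show ZMod.lift p _ (n : ZMod p) = _
    rw [h]
    show (n : ℤ) • Additive.ofMul z = _
    rw [natCast_zsmul, ofMul_pow]
  have hFp : ∀ a, p • F a = 0 := fun a => by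
    rw [← map_nsmul, nsmul_eq_mul, ZMod.natCast_self, zero_mul, map_zero]
  let Φ : ZMod p →+ TorP p (Additive (SU T)) :=
    AddMonoidHom.mk' (fun a => TorP.mk p (F a) (hFp a)) (fun a b => by
      apply TorP.val_injective p
      simp)
  have hΦ : ∀ a, TorP.val p (Φ a) = F a := fun a => rfl
  have hbij : Function.Bijective Φ := by
    constructor
    · rw [injective_iff_map_eq_zero]
      intro a ha
      have h1 : F a = 0 := by rw [← hΦ, ha, map_zero]
      rw [← ZMod.natCast_zmod_val a, hF] at h1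
      have h2 : z ^ a.val = 1 := h1
      have h3 : ζ ^ a.val = 1 := by rw [← hzc, h2]; rfl
      have h4 := hζ.dvd_of_pow_eq_one _ h3
      have h5 : a.val = 0 := Nat.eq_zero_of_dvd_of_lt h4 (ZMod.val_lt a)
      exact (ZMod.val_eq_zero a).1 h5
    · intro t
      set x : SU T := Additive.toMul (TorP.val p t) with hx
      have hxp : x ^ p = 1 := by
        have := TorP.smul_val p t
        exact this
      have hxE : (((x : SU T) : Eˣ) : E) ^ p = 1 := by
        rw [← Units.val_pow_eq_pow_val, ← Subgroup.coe_pow, hxp]; rfl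
      obtain ⟨i, -, hi⟩ := hζ.eq_pow_of_pow_eq_one hxE
      refine ⟨(i : ZMod p), ?_⟩
      apply TorP.val_injective p
      rw [hΦ, hF]
      show Additive.ofMul (z ^ i) = Additive.ofMul x
      refine congrArg Additive.ofMul (Subtype.ext (Units.ext ?_))
      rw [hzc, hi]
  refine (he.congr_add τμ (torPRep p (suRep T hT)) (AddEquiv.ofBijective Φ hbij) (fun g a => ?_)).symm
  apply TorP.val_injective p
  show TorP.val p (Φ (τμ g a)) = TorP.val p (torPRep p (suRep T hT) g (Φ a))
  rw [val_torPRep, hΦ, hΦ, hτ, ← ZMod.natCast_zmod_val a, ← ZMod.natCast_zmod_val (χ g), ← Nat.cast_mul,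
    hF, hF, suRep_ofMul]
  refine congrArg Additive.ofMul (Subtype.ext (Units.ext ?_))
  rw [coe_suAct, hzc, hzc, smul_pow', hχ, ← pow_mul]

end Fermat.Agent.S56.G2
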