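/-
S56 (G2)/(U): proof of helper14's contract `UnitsStatement p` (S56/G2/D/Units.lean) from `units_formula`.
-/
import Fermat.Agent.S56.G2.Units.Main
import Fermat.Agent.S56.G2.Units.Mu
import Fermat.Agent.S56.G2.D.Units

set_option autoImplicit false
set_option linter.unusedSectionVars false

open NumberField IsDedekindDomain Fermat.Agent.CFT

namespace Fermat.Agent.S56.G2

variable {E : Type} [Field E] [NumberField E] {Γ : Type} [Group Γ]

/-- the action of `Γ` on `E` through `act`. -/
@[reducible] def actOf (act : Γ →* (E ≃ₐ[ℚ] E)) : MulSemiringAction Γ E :=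
  MulSemiringAction.compHom E act

theorem actOf_smul (act : Γ →* (E ≃ₐ[ℚ] E)) (γ : Γ) (x : E) :
    (actOf act).smul γ x = act γ x := rfl

theorem actOf_smul_pl (act : Γ →* (E ≃ₐ[ℚ] E)) (γ : Γ) (w : Pl E) :
    letI := actOf act
    (γ • w : Pl E) = act γ • w := by
  let _ := actOf act
  apply HeightOneSpectrum.ext
  ext x
  rw [mem_smul_asIdeal_iff, mem_smul_asIdeal_iff]
  have : (γ⁻¹ • x : 𝓞 E) = (act γ)⁻¹ • x := by
    apply Subtype.ext
    show act γ⁻¹ (x : E) = (act γ)⁻¹ (x : E)
    rw [map_inv]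
  rw [this]

theorem QuotP.exists_equiv (p : ℕ) {U M : Type*} [AddCommGroup U] [AddCommGroup M] (f : U →+ M)
    (hs : Function.Surjective f) (hk : ∀ u, f u = 0 ↔ ∃ v : U, p • v = u) :
    ∃ φ : QuotP p U ≃+ M, ∀ u, φ (QuotP.mk p u) = f u := by
  let L : QuotP p U →+ M :=
    (Submodule.liftQ (LinearMap.range (pMap p U)) f.toIntLinearMap (by
      rintro _ ⟨v, rfl⟩
      rw [LinearMap.mem_ker]
      exact (hk _).2 ⟨v, (pMap_apply p U v).symm⟩)).toAddMonoidHom
  have hL : ∀ u, L (QuotP.mk p u) = f u := fun u => rfl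
  have hbij : Function.Bijective L := by
    constructor
    · rw [injective_iff_map_eq_zero]
      intro x hx
      obtain ⟨u, rfl⟩ := QuotP.mk_surjective p x
      rw [hL] at hx
      exact (QuotP.mk_eq_zero_iff p u).2 ((hk u).1 hx)
    · intro m
      obtain ⟨u, rfl⟩ := hs m
      exact ⟨QuotP.mk p u, hL u⟩
  exact ⟨AddEquiv.ofBijective L hbij, hL⟩

/-- **The contract (U).** -/
theorem units (p : ℕ) [Fact p.Prime] : UnitsStatement p := by
  intro E _ _ Γ _ _ act _hp ζ hζ T hfin hstab e M _ _ _ τM κ hκs hκk hκe τμ χ hχ hτ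
    Xf _ af jf hjf hjfr hjfe Xi _ ai ji hji hjie
  let _ := actOf act
  have hp0 : p ≠ 0 := (Fact.out : p.Prime).ne_zero
  have hT : IsStable Γ T := fun γ v hv => by rw [actOf_smul_pl]; exact hstab γ v hv
  have he := e.isAdditive_toInv
  have main := units_formula he T hfin hT
  have := finite_SU T hfin
  have : Finite T := hfin.to_subtype
  -- (a) the units mod `p`
  have ha : e.toInv (QuotP p (Additive (SU T))) (quotPRep p (suRep T hT)) = e.toFun M τM := by
    obtain ⟨φ, hφ⟩ := QuotP.exists_equiv p (MonoidHom.toAdditiveLeft κ) (fun m => by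
      obtain ⟨x, hx⟩ := hκs (Multiplicative.ofAdd m)
      exact ⟨Additive.ofMul x, by
        show Multiplicative.toAdd (κ x) = m
        rw [hx]; rfl⟩) (fun u => by
      induction u using Additive.rec with | ofMul x => ?_
      have h1 : MonoidHom.toAdditiveLeft κ (Additive.ofMul x) = 0 ↔ κ x = 1 := Iff.rfl
      rw [h1, hκk, mem_PW_iff]
      constructor
      · rintro ⟨y, hy⟩
        have hy' : y ∈ SU T := by
          rw [mem_SU_iff]
          intro v hv
          have h2 := (mem_SU_iff T (x : Eˣ)).1 x.2 v hv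
          rw [← hy, Units.val_pow_eq_pow_val, ord_pow] at h2
          rcases mul_eq_zero.1 h2 with h3 | h3
          · exact absurd (Nat.cast_eq_zero.1 h3) hp0
          · exact h3
        exact ⟨Additive.ofMul ⟨y, hy'⟩, by
          rw [← ofMul_pow]
          exact congrArg Additive.ofMul (Subtype.ext hy)⟩
      · rintro ⟨v, hv⟩
        refine ⟨((Additive.toMul v : SU T) : Eˣ), ?_⟩
        have h2 : (Additive.toMul v : SU T) ^ p = x := by
          have := congrArg Additive.toMul hv
          simpa using this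
        rw [← h2]
        rfl)
    rw [he.congr_add (quotPRep p (suRep T hT)) τM φ (fun g a => by
      obtain ⟨u, rfl⟩ := QuotP.mk_surjective p a
      induction u using Additive.rec with | ofMul x => ?_
      rw [quotPRep_mk, hφ, hφ, suRep_ofMul]
      have h3 := hκe g x (suAct T hT g x) rfl
      show Multiplicative.toAdd (κ (suAct T hT g x)) = τM g (Multiplicative.toAdd (κ x))
      rw [h3]; rfl), e.toInv_apply]
  -- (b) `μ_p`
  have hb : e.toInv (TorP p (Additive (SU T))) (torPRep p (suRep T hT)) = e.toFun (ZMod p) τμ := by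
    rw [he.torP_SU T hT ζ hζ τμ χ hχ hτ, e.toInv_apply]
  -- (c) the finite places
  have hc : e.toInv (T → ZMod p) (plRep (ZMod p) T hT) =
      e.toFun (Xf → ZMod p) (permRepP (ZMod p) af) := by
    have hmem : ∀ x, jf x ∈ T := fun x => hjfr ▸ Set.mem_range_self x
    let eq : Xf ≃ T := Equiv.ofBijective (fun x => ⟨jf x, hmem x⟩) ⟨fun x y h => hjf (congrArg Subtype.val h),
      fun t => by
        obtain ⟨x, hx⟩ : (t : Pl E) ∈ Set.range jf := hjfr ▸ t.2
        exact ⟨x, Subtype.ext hx⟩⟩
    rw [he.congr (plRep (ZMod p) T hT) (permRepP (ZMod p) af)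
      (LinearEquiv.funCongrLeft (ZMod p) (ZMod p) eq) (fun g f => by
        funext x
        show f ⟨g⁻¹ • jf x, _⟩ = f ⟨jf (af g⁻¹ x), _⟩
        congr 1
        apply Subtype.ext
        show g⁻¹ • jf x = jf (af g⁻¹ x)
        rw [hjfe, actOf_smul_pl]), e.toInv_apply]
  -- (d) the infinite places
  have hd : e.toInv (InfinitePlace E → ZMod p) (infRep (ZMod p)) =
      e.toFun (Xi → ZMod p) (permRepP (ZMod p) ai) := by
    rw [he.congr (infRep (ZMod p)) (permRepP (ZMod p) ai)
      (LinearEquiv.funCongrLeft (ZMod p) (ZMod p) (Equiv.ofBijective ji hji)) (fun g f => by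
        funext x
        show infRep (ZMod p) g f (ji x) = f (ji (ai g⁻¹ x))
        rw [infRep_apply, hjie]
        congr 1
        refine InfinitePlace.ext _ _ fun y => ?_
        show ji x (act g y) = ji x ((act g⁻¹).symm y)
        rw [map_inv]
        rfl), e.toInv_apply]
  rw [ha, hb, hc, hd, e.toInv_apply] at main
  linarith

end Fermat.Agent.S56.G2
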